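import Mathlib
import Fermat.Agent.S41.H41.CorrSys
import Fermat.Prelude.Def_ModularCurve_PeriodMap

/-!
# S41, unit U2: correspondence operators preserve parabolic homomorphisms

Let `α` be a `(Γ₁, Γ₂)`-correspondence system (`Fermat.Agent.S41.H41.IsCorrSys`) and let
`u : Γ₂ → A` be a parabolic homomorphism (`u γ = 0` whenever `(tr γ)² = 4`).

* `corrOp_apply_eq_zero_of_perm`: if `γ ∈ Γ₁` is parabolic and fixes every index, then
  `corrOp u γ = 0` (any `A`);
* `isParabolicHom_corrOp`: if `A` is torsion-free then `corrOp u` is parabolic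
  (`n = (card ι)!`: `γ ^ n` fixes every index, `α i * γ ^ n = coc * α i`, hence
  `tr coc = tr (γ ^ n)`, and `(tr γ)² = 4` is stable under powers);
* `isParabolicHom_corrOp_of_subsingleton`: the same for a one-element system and any `A`;
* `isParabolicHom_heckeOp`: the corollary for the Hecke systems of `S16/H75`.
-/

set_option autoImplicit false

open ModularCurve.Period
open scoped MatrixGroups
open Fermat.Agent.S16.H75 Fermat.Agent.S41.H41

namespace Fermat.Agent.S41.H26

/-! ### Traces of powers of parabolic matrices -/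

/-- Cayley–Hamilton for a `2 × 2` matrix of determinant one. -/
theorem mul_self_eq_of_det_eq_one (M : Matrix (Fin 2) (Fin 2) ℤ) (hM : M.det = 1) :
    M * M = M.trace • M - 1 := by
  rw [Matrix.det_fin_two] at hM
  ext i j
  rw [Matrix.sub_apply, Matrix.smul_apply, smul_eq_mul, Matrix.mul_apply, Fin.sum_univ_two,
    Matrix.trace_fin_two]
  fin_cases i <;> fin_cases j
  · show M 0 0 * M 0 0 + M 0 1 * M 1 0 = (M 0 0 + M 1 1) * M 0 0 - 1
    linear_combination -hM
  · show M 0 0 * M 0 1 + M 0 1 * M 1 1 = (M 0 0 + M 1 1) * M 0 1 - 0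
    ring
  · show M 1 0 * M 0 0 + M 1 1 * M 1 0 = (M 0 0 + M 1 1) * M 1 0 - 0
    ring
  · show M 1 0 * M 0 1 + M 1 1 * M 1 1 = (M 0 0 + M 1 1) * M 1 1 - 1
    linear_combination -hM

theorem trace_pow_succ_succ (M : Matrix (Fin 2) (Fin 2) ℤ) (hM : M.det = 1) (n : ℕ) :
    (M ^ (n + 2)).trace = M.trace * (M ^ (n + 1)).trace - (M ^ n).trace := by
  have h : M ^ (n + 2) = M.trace • M ^ (n + 1) - M ^ n := by
    rw [pow_add, pow_two, mul_self_eq_of_det_eq_one M hM, mul_sub, mul_one, Matrix.mul_smul,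
      ← pow_succ]
  rw [h, Matrix.trace_sub, Matrix.trace_smul, smul_eq_mul]

/-- If `det M = 1` and `(tr M)² = 4` then `(tr Mⁿ)² = 4` for all `n`. -/
theorem trace_pow_sq_eq_four (M : Matrix (Fin 2) (Fin 2) ℤ) (hM : M.det = 1)
    (ht : M.trace ^ 2 = 4) (n : ℕ) : (M ^ n).trace ^ 2 = 4 := by
  have key : ∀ n : ℕ, (M ^ n).trace ^ 2 = 4 ∧ 2 * (M ^ (n + 1)).trace = M.trace * (M ^ n).trace := by
    intro n
    induction n with
    | zero =>
      refine ⟨by simp, ?_⟩
      simp
      ring
    | succ n ih =>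
      obtain ⟨h1, h2⟩ := ih
      have h3 : M.trace * (M ^ (n + 1)).trace = 2 * (M ^ n).trace := by
        have : 2 * (M.trace * (M ^ (n + 1)).trace) = 2 * (2 * (M ^ n).trace) := by
          linear_combination M.trace * h2 + (M ^ n).trace * ht
        exact mul_left_cancel₀ two_ne_zero this
      refine ⟨?_, ?_⟩
      · have : 4 * (M ^ (n + 1)).trace ^ 2 = 4 * 4 := by
          linear_combination (2 * (M ^ (n + 1)).trace + M.trace * (M ^ n).trace) * h2 +
            (M ^ n).trace ^ 2 * ht + 4 * h1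
        exact mul_left_cancel₀ four_ne_zero this
      · rw [trace_pow_succ_succ M hM n]
        linear_combination h3
  exact (key n).1

/-! ### The cocycle on a fixed index -/

section

variable {Γ₁ Γ₂ : Subgroup SL(2, ℤ)} {ι : Type*} {α : ι → Matrix (Fin 2) (Fin 2) ℤ}
  (h : IsCorrSys Γ₁ Γ₂ α)

theorem trace_coc_of_perm_eq {γ : Γ₁} {i : ι} (hi : h.perm γ i = i) :
    (mat (h.coc γ i)).trace = (mat γ).trace := by
  have e := h.coc_of_perm_eq hi
  have h1 : (α i * mat γ * (α i).adjugate).trace = (α i).det * (mat γ).trace := by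
    rw [Matrix.trace_mul_comm, ← Matrix.mul_assoc, Matrix.adjugate_mul, Matrix.smul_mul,
      Matrix.one_mul, Matrix.trace_smul, smul_eq_mul]
  have h2 : (α i * mat γ * (α i).adjugate).trace = (α i).det * (mat (h.coc γ i)).trace := by
    rw [e, Matrix.mul_assoc, Matrix.mul_adjugate, Matrix.mul_smul, Matrix.mul_one,
      Matrix.trace_smul, smul_eq_mul]
  exact mul_left_cancel₀ (h.det_ne i) (h2.symm.trans h1)

theorem perm_pow (γ : Γ₁) (n : ℕ) (i : ι) : h.perm (γ ^ n) i = (h.perm γ)^[n] i := by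
  induction n with
  | zero => rw [pow_zero, h.perm_one]; rfl
  | succ n ih => rw [pow_succ, h.perm_mul, ih, Function.iterate_succ_apply']

theorem perm_pow_factorial [Fintype ι] (γ : Γ₁) (i : ι) :
    h.perm (γ ^ (Fintype.card ι).factorial) i = i := by
  classical
  rw [perm_pow]
  have h1 : (h.permEquiv γ : Equiv.Perm ι) ^ (Fintype.card ι).factorial = 1 := by
    rw [← Fintype.card_perm]
    exact pow_card_eq_one
  have h2 : (h.perm γ)^[(Fintype.card ι).factorial] =
      ⇑((h.permEquiv γ : Equiv.Perm ι) ^ (Fintype.card ι).factorial) :=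
    Equiv.Perm.iterate_eq_pow (h.permEquiv γ) _
  rw [h2, h1]
  rfl

theorem mat_pow (γ : Γ₁) (n : ℕ) : mat (γ ^ n) = mat γ ^ n := by
  simp [mat]

theorem det_mat (γ : Γ₁) : (mat γ).det = 1 := (γ : SL(2, ℤ)).2

variable [Fintype ι] {A : Type*} [AddCommGroup A]

/-- If the parabolic element `γ` fixes every index of the system, then `corrOp u γ = 0` for every
parabolic `u`. -/
theorem corrOp_apply_eq_zero_of_perm {u : Additive Γ₂ →+ A} (hu : IsParabolicHom Γ₂ u) (γ : Γ₁)
    (hγ : (mat γ).trace ^ 2 = 4) (hperm : ∀ i, h.perm γ i = i) :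
    h.corrOp u (Additive.ofMul γ) = 0 := by
  rw [IsCorrSys.corrOp_apply]
  refine Finset.sum_eq_zero fun i _ => hu _ ?_
  show (mat (h.coc γ i)).trace ^ 2 = 4
  rw [trace_coc_of_perm_eq h (hperm i)]
  exact hγ

/-- A correspondence operator with a one-element index set preserves parabolic homomorphisms. -/
theorem isParabolicHom_corrOp_of_subsingleton [Subsingleton ι] {u : Additive Γ₂ →+ A}
    (hu : IsParabolicHom Γ₂ u) : IsParabolicHom Γ₁ (h.corrOp u) :=
  fun γ hγ => corrOp_apply_eq_zero_of_perm h hu γ hγ fun _ => Subsingleton.elim _ _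

/-- A correspondence operator preserves parabolic homomorphisms with values in a torsion-free
group. -/
theorem isParabolicHom_corrOp [IsAddTorsionFree A] {u : Additive Γ₂ →+ A}
    (hu : IsParabolicHom Γ₂ u) : IsParabolicHom Γ₁ (h.corrOp u) := by
  intro γ hγ
  have hn : (Fintype.card ι).factorial ≠ 0 := Nat.factorial_ne_zero _
  have h1 : (Fintype.card ι).factorial • h.corrOp u (Additive.ofMul γ) = 0 := by
    rw [← map_nsmul, ← ofMul_pow]
    refine corrOp_apply_eq_zero_of_perm h hu _ ?_ (perm_pow_factorial h γ)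
    rw [mat_pow]
    exact trace_pow_sq_eq_four _ (det_mat γ) hγ _
  exact (nsmul_eq_zero_iff_right hn).1 h1

end

/-- The Hecke operators of `S16/H75` preserve parabolic homomorphisms with values in a torsion-free
group. -/
theorem isParabolicHom_heckeOp {Γ : Subgroup SL(2, ℤ)} {ι : Type*} [Fintype ι]
    {α : ι → Matrix (Fin 2) (Fin 2) ℤ} (h : IsHeckeSys Γ α) {A : Type*} [AddCommGroup A]
    [IsAddTorsionFree A] {u : Additive Γ →+ A} (hu : IsParabolicHom Γ u) :
    IsParabolicHom Γ (h.heckeOp u) := by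
  rw [← corrOp_eq_heckeOp h]
  exact isParabolicHom_corrOp (isCorrSys_of_isHeckeSys h) hu

end Fermat.Agent.S41.H26
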