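import Mathlib
import Fermat.Agent.S16.H75.Gamma0Hecke
import Fermat.Agent.S41.H26.ParabolicCorr

/-!
# S41: the Hecke operators `heckeHom N ℓ A` preserve parabolic homomorphisms (torsion-free `A`)
-/

set_option autoImplicit false

open CongruenceSubgroup ModularCurve ModularCurve.Period
open scoped MatrixGroups
open Fermat.Agent.S16.H75

namespace Fermat.Agent.S41.H26

/-- The Hecke operators `heckeHom N ℓ A` (`T_ℓ`, `U_ℓ`) preserve parabolic homomorphisms with
values in a torsion-free group. -/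
theorem isParabolicHom_heckeHom (N : ℕ) (ℓ : Nat.Primes) {A : Type*} [AddCommGroup A]
    [IsAddTorsionFree A] {v : Additive (Gamma0 N) →+ A} (hv : IsParabolicHom (Gamma0 N) v) :
    IsParabolicHom (Gamma0 N) (heckeHom N ℓ A v) := by
  by_cases h : (ℓ : ℕ) ∣ N
  · rw [heckeHom_of_dvd h]
    exact isParabolicHom_heckeOp _ hv
  · rw [heckeHom_of_not_dvd h]
    exact isParabolicHom_heckeOp _ hv

/-- Submodule form. -/
theorem heckeHom_mem_parabolicHoms (N : ℕ) (ℓ : Nat.Primes) {A : Type*} [AddCommGroup A]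
    [IsAddTorsionFree A] {v : Additive (Gamma0 N) →+ A}
    (hv : v ∈ parabolicHoms ℤ (Gamma0 N) A) :
    heckeHom N ℓ A v ∈ parabolicHoms ℤ (Gamma0 N) A :=
  isParabolicHom_heckeHom N ℓ hv

end Fermat.Agent.S41.H26
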