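import Mathlib
import Fermat.Agent.S41.H41.Transfer
import Fermat.Agent.S41.H26.ParabolicCorr

/-!
# S41, unit U2: the leaves U2-PARA and U2-PARB

The degeneracy maps `alpha1`, `alpha2` (any coefficients) and the transfers `beta1`, `beta2`
(torsion-free coefficients) preserve parabolic homomorphisms.
-/

set_option autoImplicit false

open CongruenceSubgroup ModularCurve ModularCurve.Period
open scoped MatrixGroups
open Fermat.Agent.S16.H75 Fermat.Agent.S41.H41

namespace Fermat.Agent.S41.H26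

variable {N q : ℕ}

/-- LEAF U2-PARA: the degeneracy maps preserve parabolic homomorphisms (any coefficients). -/
theorem alpha1_mem_parabolicHoms {A : Type*} [AddCommGroup A]
    {φ : Additive (Gamma0 N) →+ A} (hφ : φ ∈ parabolicHoms ℤ (Gamma0 N) A) :
    alpha1 N q A φ ∈ parabolicHoms ℤ (Gamma0 (N * q)) A :=
  isParabolicHom_corrOp_of_subsingleton (isCorrSys_res N q) hφ

theorem alpha2_mem_parabolicHoms (hq : q.Prime) {A : Type*} [AddCommGroup A]
    {φ : Additive (Gamma0 N) →+ A} (hφ : φ ∈ parabolicHoms ℤ (Gamma0 N) A) :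
    alpha2 N q A φ ∈ parabolicHoms ℤ (Gamma0 (N * q)) A := by
  rw [alpha2, dif_pos hq.ne_zero]
  exact isParabolicHom_corrOp_of_subsingleton (isCorrSys_delta N q hq.ne_zero) hφ

/-- LEAF U2-PARB: the transfers preserve parabolic homomorphisms (torsion-free coefficients). -/
theorem beta1_mem_parabolicHoms (hq : q.Prime) (hqN : ¬ q ∣ N) {A : Type*} [AddCommGroup A]
    [IsAddTorsionFree A] {u : Additive (Gamma0 (N * q)) →+ A}
    (hu : u ∈ parabolicHoms ℤ (Gamma0 (N * q)) A) :
    beta1 N q A u ∈ parabolicHoms ℤ (Gamma0 N) A := by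
  rw [beta1_eq hq hqN]
  exact isParabolicHom_corrOp (isCorrSys_cor1 hq hqN) hu

theorem beta2_mem_parabolicHoms (hq : q.Prime) (hqN : ¬ q ∣ N) {A : Type*} [AddCommGroup A]
    [IsAddTorsionFree A] {u : Additive (Gamma0 (N * q)) →+ A}
    (hu : u ∈ parabolicHoms ℤ (Gamma0 (N * q)) A) :
    beta2 N q A u ∈ parabolicHoms ℤ (Gamma0 N) A := by
  rw [beta2_eq hq hqN]
  exact isParabolicHom_corrOp (isCorrSys_cor2 hq hqN) hu

end Fermat.Agent.S41.H26
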