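import Mathlib
import Fermat.Agent.S49.Forms
import Fermat.Agent.S21
import Fermat.Agent.S16.H75.Gamma0Hecke
import Fermat.Prelude.Def_FLTPrelim_ModularRep

/-!
# S41, leaf (T1): the `ℂ`-valued Hecke eigen-homomorphism of a normalised eigenform

For a normalised eigenform `f` of level `N`:

* `formOp_eq_smul`: `formOp N ℓ f = a_ℓ(f) • f` for every prime `ℓ` (`T_ℓ` for `ℓ ∤ N`, `U_ℓ` for
  `ℓ ∣ N`), from the coefficient relations and the `q`-expansion principle;
* `exists_eigenHom_of_eigenform`: `x := periodHomPair N (f, 0)` is a nonzero parabolic homomorphism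
  `Γ₀(N) → ℂ` with `heckeHom N ℓ ℂ x = a_ℓ(f) • x` for every prime `ℓ`.
-/

set_option autoImplicit false

open CongruenceSubgroup ModularCurve ModularCurve.Period CuspForm ModularFormClass
open Fermat.Agent.S16.H75 (heckeHom formOp)

namespace Fermat.Agent.S41.H26

/-- A recursive (multiplicative) system with `a 0 = 0` is an eigensystem. -/
theorem isEigensystem_of_isRecursive {R : Type*} [CommRing R] {e a : ℕ → R}
    (h : FormalHecke.IsRecursive e a) (h0 : a 0 = 0) : FormalHecke.IsEigensystem e a := by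
  obtain ⟨h1, hmul, hrec⟩ := h
  refine ⟨h1, fun ℓ hℓ n => ?_⟩
  rcases Nat.eq_zero_or_pos n with rfl | hn
  · simp [h0]
  obtain ⟨r, m, hm, rfl⟩ := Nat.exists_eq_pow_mul_and_not_dvd hn.ne' ℓ hℓ.ne_one
  have hcop : ∀ k : ℕ, (ℓ ^ k).Coprime m := fun k =>
    Nat.Coprime.pow_left k ((Nat.Prime.coprime_iff_not_dvd hℓ).2 hm)
  cases r with
  | zero =>
    rw [pow_zero, one_mul, if_neg hm, mul_zero, add_zero]
    have := hmul ℓ m (by simpa using hcop 1)
    exact this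
  | succ s =>
    have hd : ℓ ∣ ℓ ^ (s + 1) * m := Dvd.dvd.mul_right (dvd_pow_self ℓ (Nat.succ_ne_zero s)) m
    have hdiv : ℓ ^ (s + 1) * m / ℓ = ℓ ^ s * m := by
      rw [pow_succ, mul_assoc, mul_comm ℓ m, ← mul_assoc, Nat.mul_div_cancel _ hℓ.pos]
    have hmul' : ℓ * (ℓ ^ (s + 1) * m) = ℓ ^ (s + 2) * m := by ring
    rw [if_pos hd, hdiv, hmul', hmul _ _ (hcop (s + 2)), hmul _ _ (hcop (s + 1)),
      hmul _ _ (hcop s), hrec ℓ s hℓ]
    ring

variable {N : ℕ}

/-- The coefficients of a normalised eigenform form an eigensystem for the weights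
`e p = p` (`p ∤ N`), `e p = 0` (`p ∣ N`). -/
theorem isEigensystem_qCoeff {f : CuspForm (Gamma0 N) 2} (hf : f.IsNormalizedEigenform) :
    FormalHecke.IsEigensystem (fun p : ℕ => if p ∣ N then (0 : ℂ) else (p : ℂ))
      (fun n => qCoeff ⇑f n) := by
  refine isEigensystem_of_isRecursive ⟨hf.qCoeff_one, hf.qCoeff_mul_of_coprime, ?_⟩
    (Fermat.Agent.S49.qCoeff_cusp_zero f)
  intro ℓ r hℓ
  by_cases hℓN : ℓ ∣ N
  · simp only [if_pos hℓN, zero_mul, sub_zero]
    exact hf.qCoeff_prime_pow_of_dvd ℓ r hℓ hℓN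
  · simp only [if_neg hℓN]
    exact hf.qCoeff_prime_pow_of_not_dvd ℓ r hℓ hℓN

theorem formOp_of_not_dvd [NeZero N] {ℓ : Nat.Primes} (h : ¬ (ℓ : ℕ) ∣ N)
    (g : CuspForm (Gamma0 N) 2) : formOp N ℓ g = CuspForm.heckeTLin 2 ℓ.2 h g := by
  show ((CuspForm.heckeFormsGen N 2 ℓ : CuspForm.heckeAlgebra N 2 ∅) :
    Module.End ℂ (CuspForm (Gamma0 N) 2)) g = _
  rw [CuspForm.heckeFormsGen_of_not_dvd h, CuspForm.heckeAlgebra.coe_T]

theorem formOp_of_dvd [NeZero N] {ℓ : Nat.Primes} (h : (ℓ : ℕ) ∣ N)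
    (g : CuspForm (Gamma0 N) 2) : formOp N ℓ g = CuspForm.heckeULin 2 h g := by
  show ((CuspForm.heckeFormsGen N 2 ℓ : CuspForm.heckeAlgebra N 2 ∅) :
    Module.End ℂ (CuspForm (Gamma0 N) 2)) g = _
  rw [CuspForm.heckeFormsGen_of_dvd h, CuspForm.heckeAlgebra.coe_U]

/-- Two cusp forms with the same `q`-expansion coefficients are equal. -/
theorem eq_of_qCoeff {k : ℤ} (f g : CuspForm (Gamma0 N) k)
    (h : ∀ n, qCoeff ⇑f n = qCoeff ⇑g n) : f = g := by
  have h0 : f + (-1 : ℂ) • g = 0 := by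
    refine Fermat.Agent.S49.eq_zero_of_qCoeff _ fun n => ?_
    rw [Fermat.Agent.S49.qCoeff_add, Fermat.Agent.S49.qCoeff_smul, h n]
    ring
  have h1 : f + (-1 : ℂ) • g = f - g := by
    rw [neg_one_smul, sub_eq_add_neg]
  rw [h1] at h0
  exact sub_eq_zero.1 h0

/-- A normalised eigenform is an eigenvector of every `formOp N ℓ`, with eigenvalue `a_ℓ(f)`. -/
theorem formOp_eq_smul (N : ℕ) [NeZero N] (f : CuspForm (Gamma0 N) 2)
    (hf : f.IsNormalizedEigenform) (ℓ : Nat.Primes) :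
    formOp N ℓ f = qCoeff ⇑f (ℓ : ℕ) • f := by
  obtain ⟨-, heig⟩ := isEigensystem_qCoeff hf
  refine eq_of_qCoeff _ _ fun n => ?_
  have key := heig ℓ ℓ.2 n
  rw [Fermat.Agent.S49.qCoeff_smul]
  by_cases h : (ℓ : ℕ) ∣ N
  · rw [formOp_of_dvd h, Fermat.Agent.S49.qCoeff_heckeULin ℓ.2 h]
    simp only [if_pos h, zero_mul, add_zero] at key
    rw [mul_comm n (ℓ : ℕ)]
    exact key
  · rw [formOp_of_not_dvd h, Fermat.Agent.S49.qCoeff_heckeTLin ℓ.2 h]
    simp only [if_neg h] at key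
    rw [mul_comm n (ℓ : ℕ), ← key]
    split_ifs <;> simp

/-- **(T1)**: the period homomorphism of a normalised eigenform is a nonzero parabolic
eigen-homomorphism of all `heckeHom N ℓ ℂ`, with eigenvalues `a_ℓ(f)`. -/
theorem exists_eigenHom_of_eigenform (N : ℕ) [NeZero N] (f : CuspForm (Gamma0 N) 2)
    (hf : f.IsNormalizedEigenform) :
    ∃ x : Additive (Gamma0 N) →+ ℂ, x ∈ parabolicHoms ℂ (Gamma0 N) ℂ ∧ x ≠ 0 ∧
      ∀ l : Nat.Primes, heckeHom N l ℂ x = qCoeff ⇑f (l : ℕ) • x := by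
  obtain ⟨hinj, hrange⟩ := Fermat.Agent.S21.result N
  refine ⟨periodHomPair N (f, 0), ?_, ?_, ?_⟩
  · rw [← hrange]
    exact LinearMap.mem_range_self _ _
  · intro h0
    have h1 : periodHomPair N (f, 0) = periodHomPair N 0 := by rw [h0, map_zero]
    have h2 := hinj h1
    exact hf.ne_zero (Prod.mk.inj h2).1
  · intro l
    rw [← Fermat.Agent.S16.H75.periodHomPair_formOp, formOp_eq_smul N f hf l, map_zero,
      ← map_smul, Prod.smul_mk, smul_zero]

end Fermat.Agent.S41.H26
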