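import Mathlib
import Fermat.Agent.S21
import Fermat.Agent.S16.H75.Gamma0Hecke

/-!
# S41, leaf DICT-COMM: the operators `heckeHom N ℓ` commute on parabolic homomorphisms

* `formOp_comm`: the operators `formOp N ℓ` on `S₂(Γ₀(N))` commute (they lie in the commutative
  Prelude Hecke algebra);
* `heckeHom_comm`: `heckeHom N ℓ ℂ` and `heckeHom N ℓ' ℂ` commute on parabolic homomorphisms
  (`S21`: parabolic = range of `periodHomPair`, and `periodHomPair_formOp`);
* `heckeHom_comm_of_injective`: the same for every coefficient group which embeds into `ℂ`;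
* `heckeHom_comm_int`: the case of `ℤ`.
-/

set_option autoImplicit false

open CongruenceSubgroup ModularCurve ModularCurve.Period CuspForm
open Fermat.Agent.S16.H75 (heckeHom formOp heckeHom_comp)

namespace Fermat.Agent.S41.H26

theorem formOp_comm (N : ℕ) [NeZero N] (ℓ ℓ' : Nat.Primes) (g : CuspForm (Gamma0 N) 2) :
    formOp N ℓ (formOp N ℓ' g) = formOp N ℓ' (formOp N ℓ g) := by
  have h : (heckeFormsGen N 2 ℓ * heckeFormsGen N 2 ℓ' : heckeAlgebra N 2 ∅) =
      heckeFormsGen N 2 ℓ' * heckeFormsGen N 2 ℓ := mul_comm _ _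
  have h' := congrArg
    (fun T : heckeAlgebra N 2 ∅ => (T : Module.End ℂ (CuspForm (Gamma0 N) 2)) g) h
  exact h'

/-- The Hecke operators commute on parabolic `ℂ`-valued homomorphisms. -/
theorem heckeHom_comm (N : ℕ) [NeZero N] (ℓ ℓ' : Nat.Primes) (v : Additive (Gamma0 N) →+ ℂ)
    (hv : IsParabolicHom (Gamma0 N) v) :
    heckeHom N ℓ ℂ (heckeHom N ℓ' ℂ v) = heckeHom N ℓ' ℂ (heckeHom N ℓ ℂ v) := by
  obtain ⟨-, hrange⟩ := Fermat.Agent.S21.result N
  have hmem : v ∈ LinearMap.range (periodHomPair N) := by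
    rw [hrange]; exact hv
  obtain ⟨⟨g₁, g₂⟩, rfl⟩ := hmem
  rw [← Fermat.Agent.S16.H75.periodHomPair_formOp, ← Fermat.Agent.S16.H75.periodHomPair_formOp,
    ← Fermat.Agent.S16.H75.periodHomPair_formOp, ← Fermat.Agent.S16.H75.periodHomPair_formOp,
    formOp_comm N ℓ ℓ' g₁, formOp_comm N ℓ ℓ' g₂]

/-- The Hecke operators commute on parabolic homomorphisms with values in a group which embeds
into `ℂ`. -/
theorem heckeHom_comm_of_injective (N : ℕ) [NeZero N] (ℓ ℓ' : Nat.Primes) {A : Type*}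
    [AddCommGroup A] (j : A →+ ℂ) (hj : Function.Injective j) (v : Additive (Gamma0 N) →+ A)
    (hv : IsParabolicHom (Gamma0 N) v) :
    heckeHom N ℓ A (heckeHom N ℓ' A v) = heckeHom N ℓ' A (heckeHom N ℓ A v) := by
  have hjv : IsParabolicHom (Gamma0 N) (j.comp v) := fun γ hγ => by
    show j (v (Additive.ofMul γ)) = 0
    rw [hv γ hγ, map_zero]
  have h := heckeHom_comm N ℓ ℓ' (j.comp v) hjv
  rw [heckeHom_comp, heckeHom_comp, heckeHom_comp, heckeHom_comp] at h
  refine AddMonoidHom.ext fun γ => hj ?_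
  exact DFunLike.congr_fun h γ

/-- The Hecke operators commute on parabolic `ℤ`-valued homomorphisms. -/
theorem heckeHom_comm_int (N : ℕ) [NeZero N] (ℓ ℓ' : Nat.Primes) (v : Additive (Gamma0 N) →+ ℤ)
    (hv : IsParabolicHom (Gamma0 N) v) :
    heckeHom N ℓ ℤ (heckeHom N ℓ' ℤ v) = heckeHom N ℓ' ℤ (heckeHom N ℓ ℤ v) :=
  heckeHom_comm_of_injective N ℓ ℓ' (Int.castAddHom ℂ) Int.cast_injective v hv

end Fermat.Agent.S41.H26
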