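import Mathlib
import Fermat.Agent.S16.H75.Gamma0Hecke
import Fermat.Agent.S22.H75.Gamma0FG
import Fermat.Prelude.Def_FLTPrelim_ModularRep
import Fermat.Prelude.Def_FreyPackage_LevelRaising

/-!
# S41, leaf RED, part (T2): from a `ℂ`-valued Hecke eigen-homomorphism to one with values in `𝔽_p`

Let `xC : Γ₀(N) → ℂ` be a nonzero parabolic homomorphism which is an eigenvector of every
`heckeHom N ℓ ℂ` with eigenvalue `μ ℓ`, and let `𝔪` be a maximal ideal of `ℤ̄ ⊂ ℂ` containing `p`.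
Then there is a nonzero parabolic homomorphism `x : Γ₀(N) → ZMod p`, killing the elements of finite
order, with `heckeHom N ℓ (ZMod p) x = c • x` whenever `μ ℓ ≡ c mod 𝔪` for an integer `c`
(and `= ± c • x` whenever `μ ℓ ^ 2 ≡ c ^ 2 mod 𝔪`).

No descent to a number field and no Hecke algebra is used: by Chevalley's theorem there is a
valuation subring `A` of `ℂ` containing `ℤ̄` whose maximal ideal contains `𝔪`; as `Γ₀(N)` is
finitely generated, `xC` can be scaled to have values in `A`, one of them equal to `1`; reduce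
modulo the maximal ideal of `A`, and compose with an `𝔽_p`-linear functional of the residue field
which does not vanish at `1`.
-/

set_option autoImplicit false

open CongruenceSubgroup ModularCurve.Period
open scoped MatrixGroups

namespace Fermat.Agent.S41.H26

open Fermat.Agent.S16.H75 (heckeHom heckeHom_comp)

/-! ### Chevalley -/

/-- A valuation subring of `K` containing the subalgebra `R`, whose nonunits contain a given proper
ideal of `R`. -/
theorem exists_valuationSubring_of_ne_top {K : Type*} [Field K] (R : Subalgebra ℤ K)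
    (𝔪 : Ideal R) (h𝔪 : 𝔪 ≠ ⊤) :
    ∃ A : ValuationSubring K, (∀ r : R, (r : K) ∈ A) ∧ ∀ r ∈ 𝔪, (r : K) ∈ A.nonunits := by
  let e : ↥R.toSubring →+* ↥R :=
    { toFun := fun x => ⟨x.1, x.2⟩
      map_one' := rfl
      map_mul' := fun _ _ => rfl
      map_zero' := rfl
      map_add' := fun _ _ => rfl }
  have hI : 𝔪.comap e ≠ ⊤ := by
    intro h
    apply h𝔪
    rw [Ideal.eq_top_iff_one] at h ⊢
    exact h
  obtain ⟨A, hA1, hA2⟩ := Ideal.image_subset_nonunits_valuationSubring (𝔪.comap e) hI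
  refine ⟨A, fun r => hA1 r.2, fun r hr => hA2 ⟨⟨r.1, r.2⟩, ?_, rfl⟩⟩
  exact hr

/-! ### Scaling a homomorphism on a finitely generated group into a valuation ring -/

theorem exists_scale {G : Type*} [Group G] [Group.FG G] {K : Type*} [Field K]
    (A : ValuationSubring K) (x : Additive G →+ K) (hx : x ≠ 0) :
    ∃ c : K, (∀ g : Additive G, c * x g ∈ A) ∧ ∃ g : Additive G, c * x g = 1 := by
  classical
  obtain ⟨S, hS, hSfin⟩ := Group.fg_iff.mp (inferInstance : Group.FG G)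
  -- some generator has a nonzero value
  have h1 : ∃ s ∈ S, x (Additive.ofMul s) ≠ 0 := by
    by_contra hcon
    simp only [not_exists, not_and, not_not] at hcon
    apply hx
    ext g
    have hg : g ∈ Subgroup.closure S := by rw [hS]; trivial
    show x (Additive.ofMul g) = 0
    refine Subgroup.closure_induction (p := fun y _ => x (Additive.ofMul y) = 0)
      (fun y hy => hcon y hy) ?_ ?_ ?_ hg
    · exact map_zero x
    · intro a b _ _ ha hb
      rw [ofMul_mul, map_add, ha, hb, add_zero]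
    · intro a _ ha
      rw [ofMul_inv, map_neg, ha, neg_zero]
  let T : Finset G := hSfin.toFinset.filter fun s => x (Additive.ofMul s) ≠ 0
  have hT : T.Nonempty := by
    obtain ⟨s, hs, hs0⟩ := h1
    exact ⟨s, Finset.mem_filter.2 ⟨hSfin.mem_toFinset.2 hs, hs0⟩⟩
  obtain ⟨s₀, hs₀T, hs₀⟩ := Finset.exists_max_image T (fun s => A.valuation (x (Additive.ofMul s))) hT
  have hs₀0 : x (Additive.ofMul s₀) ≠ 0 := (Finset.mem_filter.1 hs₀T).2
  refine ⟨(x (Additive.ofMul s₀))⁻¹, ?_, Additive.ofMul s₀, inv_mul_cancel₀ hs₀0⟩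
  -- the elements with scaled value in `A` form a subgroup containing the generators
  let H : Subgroup G :=
    { carrier := {g | (x (Additive.ofMul s₀))⁻¹ * x (Additive.ofMul g) ∈ A}
      one_mem' := by
        show (x (Additive.ofMul s₀))⁻¹ * x (Additive.ofMul 1) ∈ A
        rw [ofMul_one, map_zero, mul_zero]; exact A.zero_mem
      mul_mem' := by
        intro a b ha hb
        show (x (Additive.ofMul s₀))⁻¹ * x (Additive.ofMul (a * b)) ∈ A
        rw [ofMul_mul, map_add, mul_add]; exact A.add_mem _ _ ha hb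
      inv_mem' := by
        intro a ha
        show (x (Additive.ofMul s₀))⁻¹ * x (Additive.ofMul a⁻¹) ∈ A
        rw [ofMul_inv, map_neg, mul_neg]; exact A.neg_mem _ ha }
  have hSH : S ⊆ H := by
    intro s hs
    show (x (Additive.ofMul s₀))⁻¹ * x (Additive.ofMul s) ∈ A
    by_cases hs0 : x (Additive.ofMul s) = 0
    · rw [hs0, mul_zero]; exact A.zero_mem
    · have hsT : s ∈ T := Finset.mem_filter.2 ⟨hSfin.mem_toFinset.2 hs, hs0⟩
      have hle := hs₀ s hsT
      rw [← A.valuation_le_one_iff, map_mul, map_inv₀]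
      have hv0 : A.valuation (x (Additive.ofMul s₀)) ≠ 0 := by
        rw [Ne, map_eq_zero]; exact hs₀0
      calc (A.valuation (x (Additive.ofMul s₀)))⁻¹ * A.valuation (x (Additive.ofMul s))
          ≤ (A.valuation (x (Additive.ofMul s₀)))⁻¹ * A.valuation (x (Additive.ofMul s₀)) :=
            mul_le_mul' le_rfl hle
        _ = 1 := inv_mul_cancel₀ hv0
  have hH : H = ⊤ := by
    rw [eq_top_iff, ← hS, Subgroup.closure_le]; exact hSH
  intro g
  have : Additive.toMul g ∈ H := by rw [hH]; trivial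
  exact this

/-! ### From `ℂ` to `ZMod p` -/

/-- **(T2)**: reduction of a `ℂ`-valued Hecke eigen-homomorphism modulo a maximal ideal of `ℤ̄`
over `p`, followed by descent to `𝔽_p`. -/
theorem exists_modp_eigenHom {N p : ℕ} (hN : 0 < N) (hp : p.Prime)
    (𝔪 : Ideal (integralClosure ℤ ℂ)) (hmax : 𝔪.IsMaximal)
    (hpm : (p : integralClosure ℤ ℂ) ∈ 𝔪)
    (xC : Additive (Gamma0 N) →+ ℂ) (hx0 : xC ≠ 0) (hpar : IsParabolicHom (Gamma0 N) xC)
    (μ : Nat.Primes → ℂ) (hμ : ∀ ℓ, heckeHom N ℓ ℂ xC = μ ℓ • xC) :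
    ∃ x : Additive (Gamma0 N) →+ ZMod p, x ≠ 0 ∧ IsParabolicHom (Gamma0 N) x ∧
      (∀ γ : Gamma0 N, IsOfFinOrder γ → x (Additive.ofMul γ) = 0) ∧
      (∀ (ℓ : Nat.Primes) (c : ℤ),
        (∃ a : integralClosure ℤ ℂ, (a : ℂ) = μ ℓ ∧ a - (c : integralClosure ℤ ℂ) ∈ 𝔪) →
        heckeHom N ℓ (ZMod p) x = c • x) ∧
      (∀ (ℓ : Nat.Primes) (c : ℤ),
        (∃ a : integralClosure ℤ ℂ, (a : ℂ) = μ ℓ ∧ a ^ 2 - (c : integralClosure ℤ ℂ) ^ 2 ∈ 𝔪) →
        ∃ ε : ℤ, (ε = 1 ∨ ε = -1) ∧ heckeHom N ℓ (ZMod p) x = (ε * c) • x) := by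
  classical
  have : NeZero N := ⟨hN.ne'⟩
  have : Group.FG (Gamma0 N) := Fermat.Agent.S22.H75.fg_Gamma0 N
  have : Fact p.Prime := ⟨hp⟩
  obtain ⟨A, hA1, hA2⟩ := exists_valuationSubring_of_ne_top (integralClosure ℤ ℂ) 𝔪 hmax.ne_top
  obtain ⟨c₀, hc₀A, g₀, hg₀⟩ := exists_scale A xC hx0
  -- the scaled homomorphism with values in `A`
  let xA : Additive (Gamma0 N) →+ A :=
    { toFun := fun g => ⟨c₀ * xC g, hc₀A g⟩
      map_zero' := Subtype.ext (by simp)
      map_add' := fun a b => Subtype.ext (by simp [mul_add]) }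
  let inc : A →+ ℂ := (A.subtype : A →+* ℂ).toAddMonoidHom
  have hA_eig : ∀ (ℓ : Nat.Primes) (a : A), (a : ℂ) = μ ℓ →
      heckeHom N ℓ A xA = (AddMonoidHom.mulLeft a).comp xA := by
    intro ℓ a ha
    have h1 : inc.comp xA = (AddMonoidHom.mulLeft c₀).comp xC := AddMonoidHom.ext fun g => rfl
    have h2 : inc.comp (heckeHom N ℓ A xA) = inc.comp ((AddMonoidHom.mulLeft a).comp xA) := by
      rw [← heckeHom_comp, h1, heckeHom_comp, hμ ℓ]
      refine AddMonoidHom.ext fun g => ?_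
      show c₀ * (μ ℓ * xC g) = (a : ℂ) * (c₀ * xC g)
      rw [ha]; ring
    refine AddMonoidHom.ext fun g => Subtype.ext ?_
    exact DFunLike.congr_fun h2 g
  -- reduction modulo the maximal ideal of `A`
  let res : A →+ IsLocalRing.ResidueField A := (IsLocalRing.residue A).toAddMonoidHom
  let xk : Additive (Gamma0 N) →+ IsLocalRing.ResidueField A := res.comp xA
  have hk_eig : ∀ (ℓ : Nat.Primes) (a : A), (a : ℂ) = μ ℓ →
      heckeHom N ℓ (IsLocalRing.ResidueField A) xk =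
        (AddMonoidHom.mulLeft (IsLocalRing.residue A a)).comp xk := by
    intro ℓ a ha
    show heckeHom N ℓ (IsLocalRing.ResidueField A) (res.comp xA) = _
    rw [heckeHom_comp, hA_eig ℓ a ha]
    refine AddMonoidHom.ext fun g => ?_
    show IsLocalRing.residue A (a * xA g) = IsLocalRing.residue A a * IsLocalRing.residue A (xA g)
    exact map_mul _ _ _
  -- the residue field has characteristic `p`
  have hpk : ((p : ℕ) : IsLocalRing.ResidueField A) = 0 := by
    have h1 : ((p : A) : ℂ) ∈ A.nonunits := by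
      have := hA2 _ hpm
      simpa using this
    have h2 : (p : A) ∈ IsLocalRing.maximalIdeal A := ValuationSubring.coe_mem_nonunits_iff.1 h1
    have h3 := (IsLocalRing.residue_eq_zero_iff (p : A)).2 h2
    simpa using h3
  have hchar : CharP (IsLocalRing.ResidueField A) p := (CharP.charP_iff_prime_eq_zero hp).2 hpk
  let _ : Algebra (ZMod p) (IsLocalRing.ResidueField A) := ZMod.algebra _ p
  obtain ⟨φ, hφ⟩ : ∃ φ : Module.Dual (ZMod p) (IsLocalRing.ResidueField A), φ 1 ≠ 0 :=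
    Module.Projective.exists_dual_ne_zero (ZMod p) one_ne_zero
  let x : Additive (Gamma0 N) →+ ZMod p := φ.toAddMonoidHom.comp xk
  have hzero : ∀ g : Additive (Gamma0 N), xC g = 0 → x g = 0 := by
    intro g hg
    have h1 : xA g = 0 := Subtype.ext (by show c₀ * xC g = 0; rw [hg, mul_zero])
    show φ (IsLocalRing.residue A (xA g)) = 0
    rw [h1, map_zero, map_zero]
  have hx_eig : ∀ (ℓ : Nat.Primes) (a : A) (c : ℤ), (a : ℂ) = μ ℓ →
      IsLocalRing.residue A a = (c : IsLocalRing.ResidueField A) →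
      heckeHom N ℓ (ZMod p) x = c • x := by
    intro ℓ a c ha hac
    show heckeHom N ℓ (ZMod p) (φ.toAddMonoidHom.comp xk) = _
    rw [heckeHom_comp, hk_eig ℓ a ha, hac]
    refine AddMonoidHom.ext fun g => ?_
    show φ ((c : IsLocalRing.ResidueField A) * xk g) = c • φ (xk g)
    rw [← zsmul_eq_mul, map_zsmul]
  -- the element of `A` given by an element of `ℤ̄`
  have hres_int : ∀ (a' : integralClosure ℤ ℂ) (c : ℤ),
      a' - (c : integralClosure ℤ ℂ) ∈ 𝔪 →
      IsLocalRing.residue A ⟨(a' : ℂ), hA1 a'⟩ = (c : IsLocalRing.ResidueField A) := by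
    intro a' c hac
    have h1 : ((⟨(a' : ℂ), hA1 a'⟩ - (c : A) : A) : ℂ) ∈ A.nonunits := by
      have := hA2 _ hac
      simpa using this
    have h2 := (IsLocalRing.residue_eq_zero_iff _).2 (ValuationSubring.coe_mem_nonunits_iff.1 h1)
    rw [map_sub, sub_eq_zero, map_intCast] at h2
    exact h2
  refine ⟨x, ?_, ?_, ?_, ?_, ?_⟩
  · intro h
    apply hφ
    have h1 : xA g₀ = 1 := Subtype.ext hg₀
    have h2 : x g₀ = φ 1 := by
      show φ (IsLocalRing.residue A (xA g₀)) = φ 1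
      rw [h1, map_one]
    rw [← h2, h]; rfl
  · intro γ hγ
    exact hzero _ (hpar γ hγ)
  · intro γ hγ
    apply hzero
    obtain ⟨n, hn, hγn⟩ := isOfFinOrder_iff_pow_eq_one.1 hγ
    have h1 : n • xC (Additive.ofMul γ) = 0 := by
      rw [← map_nsmul, ← ofMul_pow, hγn, ofMul_one, map_zero]
    rcases smul_eq_zero.1 h1 with h | h
    · exact absurd h hn.ne'
    · exact h
  · rintro ℓ c ⟨a', ha', hac⟩
    exact hx_eig ℓ ⟨(a' : ℂ), hA1 a'⟩ c ha' (hres_int a' c hac)
  · rintro ℓ c ⟨a', ha', hac⟩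
    have h1 : IsLocalRing.residue A ⟨(a' : ℂ), hA1 a'⟩ ^ 2 =
        (c : IsLocalRing.ResidueField A) ^ 2 := by
      have h := hres_int (a' ^ 2) (c ^ 2) (by simpa using hac)
      have h' : (⟨((a' ^ 2 : integralClosure ℤ ℂ) : ℂ), hA1 (a' ^ 2)⟩ : A) =
          ⟨(a' : ℂ), hA1 a'⟩ ^ 2 := Subtype.ext (by simp)
      rw [h', map_pow] at h
      rw [h]; push_cast; ring
    rcases sq_eq_sq_iff_eq_or_eq_neg.1 h1 with h | h
    · exact ⟨1, Or.inl rfl, hx_eig ℓ _ (1 * c) ha' (by rw [h]; push_cast; ring)⟩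
    · exact ⟨-1, Or.inr rfl, hx_eig ℓ _ (-1 * c) ha' (by rw [h]; push_cast; ring)⟩

/-! ### The leaf RED from a `ℂ`-valued eigen-homomorphism -/

/-- **Leaf RED of the S41 top skeleton, modulo (T1)**: the conclusion of `red` from a nonzero
parabolic `xC : Γ₀(N) → ℂ` with `heckeHom N ℓ ℂ xC = a_ℓ(f) • xC` for all primes `ℓ`. -/
theorem red_of_eigenHom {W : WeierstrassCurve ℤ} {p N q' : ℕ} (hp : p.Prime) (hN : 0 < N)
    (hq' : q'.Prime)
    (f : CuspForm (CongruenceSubgroup.Gamma0 N) 2) (𝔪 : Ideal (integralClosure ℤ ℂ))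
    (hmax : 𝔪.IsMaximal) (hpm : (p : integralClosure ℤ ℂ) ∈ 𝔪)
    (hcong : ∀ ℓ : ℕ, ℓ.Prime → W.IsGoodPrimeFor ℓ → ¬ ℓ ∣ N → ℓ ≠ p →
      ∃ a : integralClosure ℤ ℂ, (a : ℂ) = ModularFormClass.qCoeff f ℓ ∧
        a - ((W.apOfModel ℓ : ℤ) : integralClosure ℤ ℂ) ∈ 𝔪)
    (hLR : ∃ a : integralClosure ℤ ℂ, (a : ℂ) = ModularFormClass.qCoeff f q' ∧
      a ^ 2 - ((q' : integralClosure ℤ ℂ) + 1) ^ 2 ∈ 𝔪)
    (xC : Additive (Gamma0 N) →+ ℂ) (hx0 : xC ≠ 0) (hpar : IsParabolicHom (Gamma0 N) xC)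
    (hμ : ∀ ℓ : Nat.Primes, heckeHom N ℓ ℂ xC = ModularFormClass.qCoeff f (ℓ : ℕ) • xC) :
    ∃ (ε : ℤ) (x : Additive (Gamma0 N) →+ ZMod p), (ε = 1 ∨ ε = -1) ∧ x ≠ 0 ∧
      IsParabolicHom (Gamma0 N) x ∧
      (∀ γ : Gamma0 N, IsOfFinOrder γ → x (Additive.ofMul γ) = 0) ∧
      (∀ ℓ : Nat.Primes, W.IsGoodPrimeFor ℓ → ¬ (ℓ : ℕ) ∣ N → (ℓ : ℕ) ≠ p →
        heckeHom N ℓ (ZMod p) x = W.apOfModel ℓ • x) ∧
      heckeHom N ⟨q', hq'⟩ (ZMod p) x = (ε * ((q' : ℤ) + 1)) • x := by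
  obtain ⟨x, hx0', hxpar, hxell, hx1, hx2⟩ :=
    exists_modp_eigenHom hN hp 𝔪 hmax hpm xC hx0 hpar
      (fun ℓ : Nat.Primes => ModularFormClass.qCoeff f (ℓ : ℕ)) hμ
  obtain ⟨a, ha, haq⟩ := hLR
  obtain ⟨ε, hε, hxq⟩ := hx2 ⟨q', hq'⟩ ((q' : ℤ) + 1) ⟨a, ha, by push_cast; exact haq⟩
  refine ⟨ε, x, hε, hx0', hxpar, hxell, ?_, hxq⟩
  intro ℓ hgood hℓN hℓp
  exact hx1 ℓ (W.apOfModel ℓ) (hcong ℓ ℓ.2 hgood hℓN hℓp)

end Fermat.Agent.S41.H26
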