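import Mathlib
import Fermat.Agent.S41.H16.RedInt
import Fermat.Agent.S41.H26.EigenHom
import Fermat.Agent.S41.H26.Red

/-!
# S41, leaf RED: unconditional forms

The leaf RED of the S41 top skeleton, with the hypothesis (T1) discharged by
`exists_eigenHom_of_eigenform`:

* `red_int`: the binding integral form (an integral parabolic class, nonzero mod `p`, whose
  reduction is an eigenvector with eigenvalues `a_ℓ(W)` at the good primes and `± (q' + 1)` at `q'`);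
* `red_int'`: the same with the congruences written as `T_ℓ x - a_ℓ(W) x = p z`, `z` integral
  parabolic;
* `red`: the `ZMod p`-valued form.
-/

set_option autoImplicit false

open CongruenceSubgroup ModularCurve ModularCurve.Period
open Fermat.Agent.S16.H75 (heckeHom)

namespace Fermat.Agent.S41.H26

/-- **Leaf RED, integral form.** -/
theorem red_int {W : WeierstrassCurve ℤ} {p N q' : ℕ} (hp : p.Prime) (hN : 0 < N)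
    (hq' : q'.Prime) (_hq'N : ¬ q' ∣ N) (_hq'p : q' ≠ p)
    (f : CuspForm (CongruenceSubgroup.Gamma0 N) 2) (𝔪 : Ideal (integralClosure ℤ ℂ))
    (hf : f.IsNormalizedEigenform) (hmax : 𝔪.IsMaximal) (hpm : (p : integralClosure ℤ ℂ) ∈ 𝔪)
    (hcong : ∀ ℓ : ℕ, ℓ.Prime → W.IsGoodPrimeFor ℓ → ¬ ℓ ∣ N → ℓ ≠ p →
      ∃ a : integralClosure ℤ ℂ, (a : ℂ) = ModularFormClass.qCoeff f ℓ ∧
        a - ((W.apOfModel ℓ : ℤ) : integralClosure ℤ ℂ) ∈ 𝔪)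
    (hLR : ∃ a : integralClosure ℤ ℂ, (a : ℂ) = ModularFormClass.qCoeff f q' ∧
      a ^ 2 - ((q' : integralClosure ℤ ℂ) + 1) ^ 2 ∈ 𝔪) :
    ∃ (ε : ℤ) (x : Additive (Gamma0 N) →+ ℤ), (ε = 1 ∨ ε = -1) ∧
      IsParabolicHom (Gamma0 N) x ∧
      (Int.castAddHom (ZMod p)).comp x ≠ 0 ∧
      (∀ ℓ : Nat.Primes, W.IsGoodPrimeFor ℓ → ¬ (ℓ : ℕ) ∣ N → (ℓ : ℕ) ≠ p →
        heckeHom N ℓ (ZMod p) ((Int.castAddHom (ZMod p)).comp x) =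
          W.apOfModel ℓ • (Int.castAddHom (ZMod p)).comp x) ∧
      heckeHom N ⟨q', hq'⟩ (ZMod p) ((Int.castAddHom (ZMod p)).comp x) =
        (ε * ((q' : ℤ) + 1)) • (Int.castAddHom (ZMod p)).comp x :=
  haveI : NeZero N := ⟨hN.ne'⟩
  Fermat.Agent.S41.H16.red_int_of_eigenHom hp hq' f 𝔪 hmax hpm hcong hLR
    (exists_eigenHom_of_eigenform N f hf)

/-- **Leaf RED, integral form with explicit quotients.** -/
theorem red_int' {W : WeierstrassCurve ℤ} {p N q' : ℕ} (hp : p.Prime) (hN : 0 < N)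
    (hq' : q'.Prime)
    (f : CuspForm (CongruenceSubgroup.Gamma0 N) 2) (𝔪 : Ideal (integralClosure ℤ ℂ))
    (hf : f.IsNormalizedEigenform) (hmax : 𝔪.IsMaximal) (hpm : (p : integralClosure ℤ ℂ) ∈ 𝔪)
    (hcong : ∀ ℓ : ℕ, ℓ.Prime → W.IsGoodPrimeFor ℓ → ¬ ℓ ∣ N → ℓ ≠ p →
      ∃ a : integralClosure ℤ ℂ, (a : ℂ) = ModularFormClass.qCoeff f ℓ ∧
        a - ((W.apOfModel ℓ : ℤ) : integralClosure ℤ ℂ) ∈ 𝔪)
    (hLR : ∃ a : integralClosure ℤ ℂ, (a : ℂ) = ModularFormClass.qCoeff f q' ∧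
      a ^ 2 - ((q' : integralClosure ℤ ℂ) + 1) ^ 2 ∈ 𝔪) :
    ∃ (ε : ℤ) (x : Additive (Gamma0 N) →+ ℤ), (ε = 1 ∨ ε = -1) ∧
      IsParabolicHom (Gamma0 N) x ∧ (∃ γ, ¬ (p : ℤ) ∣ x γ) ∧
      (∀ ℓ : Nat.Primes, W.IsGoodPrimeFor ℓ → ¬ (ℓ : ℕ) ∣ N → (ℓ : ℕ) ≠ p →
        ∃ z : Additive (Gamma0 N) →+ ℤ, IsParabolicHom (Gamma0 N) z ∧
          heckeHom N ℓ ℤ x - W.apOfModel ℓ • x = p • z) ∧
      ∃ z : Additive (Gamma0 N) →+ ℤ, IsParabolicHom (Gamma0 N) z ∧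
        heckeHom N ⟨q', hq'⟩ ℤ x - (ε * ((q' : ℤ) + 1)) • x = p • z :=
  haveI : NeZero N := ⟨hN.ne'⟩
  Fermat.Agent.S41.H16.red_int_of_eigenHom' hp hq' f 𝔪 hmax hpm hcong hLR
    (exists_eigenHom_of_eigenform N f hf)

/-- **Leaf RED, `ZMod p`-valued form.** -/
theorem red {W : WeierstrassCurve ℤ} {p N q' : ℕ} (hp : p.Prime) (hN : 0 < N)
    (hq' : q'.Prime) (_hq'N : ¬ q' ∣ N) (_hq'p : q' ≠ p)
    (f : CuspForm (CongruenceSubgroup.Gamma0 N) 2) (𝔪 : Ideal (integralClosure ℤ ℂ))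
    (hf : f.IsNormalizedEigenform) (hmax : 𝔪.IsMaximal) (hpm : (p : integralClosure ℤ ℂ) ∈ 𝔪)
    (hcong : ∀ ℓ : ℕ, ℓ.Prime → W.IsGoodPrimeFor ℓ → ¬ ℓ ∣ N → ℓ ≠ p →
      ∃ a : integralClosure ℤ ℂ, (a : ℂ) = ModularFormClass.qCoeff f ℓ ∧
        a - ((W.apOfModel ℓ : ℤ) : integralClosure ℤ ℂ) ∈ 𝔪)
    (hLR : ∃ a : integralClosure ℤ ℂ, (a : ℂ) = ModularFormClass.qCoeff f q' ∧
      a ^ 2 - ((q' : integralClosure ℤ ℂ) + 1) ^ 2 ∈ 𝔪) :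
    ∃ (ε : ℤ) (x : Additive (Gamma0 N) →+ ZMod p), (ε = 1 ∨ ε = -1) ∧ x ≠ 0 ∧
      IsParabolicHom (Gamma0 N) x ∧
      (∀ γ : Gamma0 N, IsOfFinOrder γ → x (Additive.ofMul γ) = 0) ∧
      (∀ ℓ : Nat.Primes, W.IsGoodPrimeFor ℓ → ¬ (ℓ : ℕ) ∣ N → (ℓ : ℕ) ≠ p →
        heckeHom N ℓ (ZMod p) x = W.apOfModel ℓ • x) ∧
      heckeHom N ⟨q', hq'⟩ (ZMod p) x = (ε * ((q' : ℤ) + 1)) • x := by
  haveI : NeZero N := ⟨hN.ne'⟩
  obtain ⟨xC, hpar, hx0, hμ⟩ := exists_eigenHom_of_eigenform N f hf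
  exact red_of_eigenHom hp hN hq' f 𝔪 hmax hpm hcong hLR xC hx0 hpar hμ

end Fermat.Agent.S41.H26
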